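import Fermat.Agent.S33.Hopf.Api
import Fermat.Agent.S33.KP.OneUnit

/-!
# PROJECT N (S33), `Hopf/Omega` (helper16): SEAM Ω from SEAM C

Frame of `S34/Z1X0`: `p` prime, `p ∤ M`, `A` a valuation ring of `ℚ̄` over `p`, `J = J₀(M p)(ℚ̄)`,
`I_A` the inertia group of `A`.

`inertiaFrame_of_nodalChart` : IF there are a subgroup `J1 ≤ J` and a chart on it as in SEAM C
(`I_A`-stable, injective non-unit coordinates commuting with `I_A`, truncated addition law over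
`W A`, and `oneUnit (p ^ j) ≤ J1` for all `j`), THEN there is an `I_A`-stable subgroup `U ≤ J` such
that
* `(τ - 1) y ∈ U` for every `p`-power torsion point `y` and `τ ∈ I_A`   (helper3's
  `KP/OneUnit.smul_sub_mem_oneUnit`),
* every `τ ∈ I_A` acts on every reachable subgroup `B ≤ U ⊓ J[p^k]` as multiplication by
  `cycExp p k τ`   (`Hopf/Api.cyc_of_chart`).
This is the statement SEAM Ω of TABLE N-1; the hypothesis is the statement SEAM C (with the last
clause at `n = p ^ j`, helper23's correction).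
-/

set_option autoImplicit false
set_option linter.unusedSectionVars false
set_option linter.style.haveILetI false
set_option synthInstance.maxHeartbeats 400000

noncomputable section

namespace Fermat.Agent.S33.Hopf.Omega

open ModularCurve
open Fermat.Agent.S18.C.SmallDVR Fermat.Agent.S15.P.CycAct
open Fermat.Agent.S33.Alg.Reach Fermat.Agent.S33.KP.OneUnit Fermat.Agent.S33.Hopf.Api

local notation "Qbar" => AlgebraicClosure ℚ
local notation "GQ" => (AlgebraicClosure ℚ ≃ₐ[ℚ] AlgebraicClosure ℚ)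

variable {p : ℕ} [hp : Fact p.Prime] {M : ℕ} [NeZero M] {A : ValuationSubring Qbar}
variable (hA : A.LiesOverPrime p) (hpM : ¬ p ∣ M) [NeZero p]

set_option maxHeartbeats 800000 in
/-- **SEAM C ⟹ SEAM Ω.** -/
theorem inertiaFrame_of_nodalChart
    (hC : ∃ (J1 : AddSubgroup (JZero (M * p))) (g : ℕ) (coord : JZero (M * p) → Fin g → Qbar)
      (Ψ : ℕ → Fin g → MvPolynomial (Fin g ⊕ Fin g) ↥(W A)),
      (∀ τ ∈ A.inertiaSubgroupIn ℚ, ∀ z ∈ J1, τ • z ∈ J1) ∧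
      (∀ z z', z ∈ J1 → z' ∈ J1 → coord z = coord z' → z = z') ∧
      (∀ z ∈ J1, ∀ i, coord z i ∈ A.nonunits) ∧
      (∀ τ ∈ A.inertiaSubgroupIn ℚ, ∀ z ∈ J1, ∀ i, coord (τ • z) i = τ (coord z i)) ∧
      (∀ z z', z ∈ J1 → z' ∈ J1 → ∃ c ∈ A.nonunits, ∀ (n : ℕ) (i : Fin g), ∃ a ∈ A,
        coord (z + z') i - MvPolynomial.aeval (Sum.elim (coord z) (coord z')) (Ψ n i) =
          c ^ n * a) ∧
      ∀ j : ℕ, oneUnit hA hpM (p ^ j) ≤ J1) :
    ∃ U : AddSubgroup (JZero (M * p)),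
      (∀ τ ∈ A.inertiaSubgroupIn ℚ, ∀ z ∈ U, τ • z ∈ U) ∧
      (∀ (k : ℕ) (y : JZero (M * p)), (p ^ k) • y = 0 →
        ∀ τ ∈ A.inertiaSubgroupIn ℚ, τ • y - y ∈ U) ∧
      ∀ (k : ℕ) (B : AddSubgroup (JZero (M * p))), (∀ z ∈ B, z ∈ U ∧ (p ^ k) • z = 0) →
        Reach (fun (τ : ↥(A.inertiaSubgroupIn ℚ)) (z : JZero (M * p)) => (τ : GQ) • z) p B →
        ∀ τ : ↥(A.inertiaSubgroupIn ℚ), ∀ z ∈ B, (τ : GQ) • z = cycExp p k (τ : GQ) • z := by
  haveI : NeZero (M * p) := ⟨Nat.mul_ne_zero (NeZero.ne M) (NeZero.ne p)⟩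
  obtain ⟨J1, g, coord, Ψ, hst, hinj, hnu, hI, hadd, hone⟩ := hC
  refine ⟨J1, hst, fun k y hy τ hτ => ?_, fun k B hB hR τ z hz => ?_⟩
  · exact hone k (smul_sub_mem_oneUnit hA hpM hτ (pow_ne_zero k hp.out.ne_zero) y hy)
  · exact cyc_of_chart hA J1 coord Ψ hst hinj hnu hI hadd k B hB hR τ z hz

end Fermat.Agent.S33.Hopf.Omega
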