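import Fermat.Agent.S33.Hopf.Scalar
import Fermat.Agent.S19.ChartAPIX0

/-!
# PROJECT N (S33), `Hopf/Api` (helper16): link [N2], from a chart on a subgroup `J¹` to the
cyclotomic action of inertia

`N` a level, `p` a prime, `A` a valuation ring of `ℚ̄` over `p`, `I_A` its inertia group.  INPUT
(hypothesis-shaped = the clauses of SEAM C): a subgroup `J1 ≤ J₀(N)(ℚ̄)` stable under `I_A`, with a
chart `coord : J₀(N) → Fin g → ℚ̄` which on `J1` is injective, has NON-UNIT values, commutes with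
`I_A`, and has a truncated addition law `Ψ n i ∈ W A [X, Y]` (congruences modulo `c ^ n A`, `c` a
non-unit).  NO hypothesis on `p` and `N`.

* `reach_addSubgroupOf` : transport of `Reach` to a stable subgroup containing the chain;
* `chartAPI_of_chart` : the instance of `S19/ChartGlue.ChartAPI` with `Γ := ↥I_A`, `I := ⊤`,
  `J := ↥J1`, `J1 := ⊤` (everything is in the kernel of reduction), `T := ↥(J1 ⊓ J₀(N)[p^k])`,
  `OL := OLX A N (p^k)`, base point `0`.  No Frobenius element anywhere;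
* `isHopfOrder_of_chart` : the generated algebra `HW0` is a function-level Hopf order over `W A` on
  `J1 ⊓ J₀(N)[p^k]` (`S32/HopfClosure.IsHopfOrder`), with values in `A`, LOCAL everywhere
  (`f s - f s' ∈ 𝔪_A`);
* `cyc_of_chart` : **every `τ ∈ I_A` acts on every reachable subgroup `B ≤ J1 ⊓ J₀(N)[p^k]` as
  multiplication by `cycExp p k τ`** (third clause of SEAM Ω).
-/

set_option autoImplicit false
set_option linter.unusedSectionVars false
set_option linter.style.haveILetI false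
set_option synthInstance.maxHeartbeats 400000

noncomputable section

namespace Fermat.Agent.S33.Hopf.Api

open ModularCurve IsLocalRing
open Fermat.Agent.S18.C.SmallDVR Fermat.Agent.S19.TorsionX0 Fermat.Agent.S19.FrobFrameX0
open Fermat.Agent.S19.ChartGlue Fermat.Agent.S19.OrderGen Fermat.Agent.S19.IntegralWV
open Fermat.Agent.S32.HopfClosure Fermat.Agent.S15.P.OrderG0 Fermat.Agent.S15.P.CycAct
open Fermat.Agent.S15.P.ChartLocal Fermat.Agent.S15.P.ChartLocalX0
open Fermat.Agent.S33.Alg.Reach Fermat.Agent.S33.Hopf.Scalar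

local notation "Qbar" => AlgebraicClosure ℚ
local notation "GQ" => (AlgebraicClosure ℚ ≃ₐ[ℚ] AlgebraicClosure ℚ)

/-! ### Transport of `Reach` to a stable subgroup -/

section Transport

variable {I : Type*} {M : Type*} [AddCommGroup M]

/-- a chain inside a stable subgroup `S` is a chain of `S` -/
theorem reach_addSubgroupOf {act : I → M → M} {p : ℕ} (S : AddSubgroup M)
    (hS : ∀ τ, ∀ s ∈ S, act τ s ∈ S) {B : AddSubgroup M} (hBS : B ≤ S) (hR : Reach act p B) :
    Reach (fun τ (s : ↥S) => (⟨act τ (s : M), hS τ _ s.2⟩ : ↥S)) p (B.addSubgroupOf S) := by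
  obtain ⟨Fl, n, h0, hn, hmono, hstab, hidx⟩ := hR
  have hle : ∀ j, j ≤ n → ∀ i ≤ j, Fl i ≤ Fl j := by
    intro j
    induction j with
    | zero =>
      intro _ i hi
      rw [Nat.le_zero.1 hi]
    | succ j ih =>
      intro hj i hi
      rcases Nat.of_le_succ hi with h | h
      · exact (ih (Nat.le_of_succ_le hj) i h).trans (hmono j (Nat.lt_of_succ_le hj))
      · rw [h]
  have hFS : ∀ i ≤ n, Fl i ≤ S := fun i hi => ((hle n le_rfl i hi).trans (le_of_eq hn)).trans hBS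
  refine ⟨fun i => (Fl i).addSubgroupOf S, n, ?_, ?_, ?_, ?_, ?_⟩
  · change (Fl 0).addSubgroupOf S = ⊥
    rw [h0]
    exact AddSubgroup.bot_addSubgroupOf S
  · change (Fl n).addSubgroupOf S = _
    rw [hn]
  · intro i hi
    exact AddSubgroup.comap_mono (hmono i hi)
  · intro i hi τ s hs
    exact hstab i hi τ _ hs
  · intro i hi
    change ((Fl i).addSubgroupOf S).relIndex ((Fl (i + 1)).addSubgroupOf S) = 1 ∨
      ((Fl i).addSubgroupOf S).relIndex ((Fl (i + 1)).addSubgroupOf S) = p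
    rw [AddSubgroup.relIndex_addSubgroupOf (hFS (i + 1) hi)]
    exact hidx i hi

end Transport

/-! ### The chart interface -/

section Chart

variable {p : ℕ} [Fact p.Prime] {N : ℕ} [NeZero N] {A : ValuationSubring Qbar}
  (hA : A.LiesOverPrime p)
  (J1 : AddSubgroup (JZero N)) {g : ℕ} (coord : JZero N → Fin g → Qbar)
  (Ψ : ℕ → Fin g → MvPolynomial (Fin g ⊕ Fin g) ↥(W A))
  (hst : ∀ τ ∈ A.inertiaSubgroupIn ℚ, ∀ z ∈ J1, τ • z ∈ J1)

/-- the `p ^ k`-torsion of `J1` -/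
def Tk (k : ℕ) : AddSubgroup (JZero N) := J1 ⊓ (T N ((p : ℤ) ^ k)).toAddSubgroup

theorem mem_Tk {k : ℕ} {z : JZero N} :
    z ∈ Tk (p := p) J1 k ↔ z ∈ J1 ∧ z ∈ T N ((p : ℤ) ^ k) := Iff.rfl

theorem finite_Tk (k : ℕ) : Finite ↥(Tk (p := p) J1 k) := by
  haveI := finite_T (N := N)
    (pow_ne_zero k (Int.natCast_ne_zero.2 (Fact.out : p.Prime).ne_zero) : ((p : ℤ) ^ k) ≠ 0)
  exact Finite.of_injective
    (fun z : ↥(Tk (p := p) J1 k) => (⟨z.1, z.2.2⟩ : ↥(T N ((p : ℤ) ^ k))))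
    (fun x y h => Subtype.ext (by
      have h1 := congrArg (fun w : ↥(T N ((p : ℤ) ^ k)) => (w : JZero N)) h
      exact h1))

include hst in
theorem smul_mem_Tk {k : ℕ} (τ : ↥(A.inertiaSubgroupIn ℚ)) {z : JZero N}
    (hz : z ∈ Tk (p := p) J1 k) : (τ : GQ) • z ∈ Tk (p := p) J1 k :=
  ⟨hst τ τ.2 z hz.1, smul_mem_T (τ : GQ) hz.2⟩

/-- the action of inertia on `J1` -/
def actJ (τ : ↥(A.inertiaSubgroupIn ℚ)) (z : ↥J1) : ↥J1 := ⟨(τ : GQ) • (z : JZero N), hst τ τ.2 z z.2⟩

/-- the action of inertia on `J1[p^k]` -/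
def rhoT (k : ℕ) (τ : ↥(A.inertiaSubgroupIn ℚ)) (t : ↥(Tk (p := p) J1 k)) : ↥(Tk (p := p) J1 k) :=
  ⟨(τ : GQ) • (t : JZero N), smul_mem_Tk J1 hst τ t.2⟩

/-- the inclusion `J1[p^k] → J1` -/
def iotaT (k : ℕ) : ↥(Tk (p := p) J1 k) →+ ↥J1 := AddSubgroup.inclusion inf_le_left

/-- the chart on `J1` -/
def coordJ (z : ↥J1) : Fin g → Qbar := coord (z : JZero N)

variable
  (hinj : ∀ z z', z ∈ J1 → z' ∈ J1 → coord z = coord z' → z = z')
  (hnu : ∀ z ∈ J1, ∀ i, coord z i ∈ A.nonunits)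
  (hI : ∀ τ ∈ A.inertiaSubgroupIn ℚ, ∀ z ∈ J1, ∀ i, coord (τ • z) i = τ (coord z i))
  (hadd : ∀ z z', z ∈ J1 → z' ∈ J1 → ∃ c ∈ A.nonunits, ∀ (n : ℕ) (i : Fin g), ∃ a ∈ A,
    coord (z + z') i - MvPolynomial.aeval (Sum.elim (coord z) (coord z')) (Ψ n i) = c ^ n * a)

include hA hinj hnu hI hadd in
set_option maxHeartbeats 1600000 in
/-- **[N2], the instance**: SEAM C's clauses give a `ChartAPI` on `J1[p^k]` with everything in the
kernel of reduction. -/
theorem chartAPI_of_chart (k : ℕ) :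
    haveI := finite_Tk (p := p) J1 k
    haveI := Fermat.Agent.S19.FrameWX0.isNoetherianRing_W hA
    haveI := finite_OLX (N := N)
      (pow_ne_zero k (Int.natCast_ne_zero.2 (Fact.out : p.Prime).ne_zero) : ((p : ℤ) ^ k) ≠ 0) hA
    ChartAPI (W := ↥(W A)) (K := Qbar) (Γ := ↥(A.inertiaSubgroupIn ℚ))
      (OLX A N ((p : ℤ) ^ k)) (Aalg A) (fun c => c ∈ A.nonunits) (actJ J1 hst)
      (⊤ : AddSubgroup ↥J1) (iotaT (p := p) J1 k) (rhoT J1 hst k)
      (⊤ : Subgroup ↥(A.inertiaSubgroupIn ℚ)) (coordJ J1 coord) Ψ := by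
  haveI := finite_Tk (p := p) J1 k
  haveI := Fermat.Agent.S19.FrameWX0.isNoetherianRing_W hA
  haveI := finite_OLX (N := N)
    (pow_ne_zero k (Int.natCast_ne_zero.2 (Fact.out : p.Prime).ne_zero) : ((p : ℤ) ^ k) ≠ 0) hA
  exact
    { ρ_add := fun τ s t => Subtype.ext (smul_add (τ : GQ) (s : JZero N) (t : JZero N))
      ρ_mul := fun τ τ' t => Subtype.ext (mul_smul (τ : GQ) (τ' : GQ) (t : JZero N))
      ρ_one := fun t => Subtype.ext (one_smul GQ (t : JZero N))
      act_add := fun τ x y => Subtype.ext (smul_add (τ : GQ) (x : JZero N) (y : JZero N))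
      ι_inj := AddSubgroup.inclusion_injective inf_le_left
      ι_ρ := fun τ t => rfl
      fixW := fun τ _ w => Fermat.Agent.S19.FrobFrameX0.fixW τ.2 w
      J1_I := fun τ _ x => AddSubgroup.mem_top _
      coord_inj := fun z z' _ _ h => Subtype.ext (hinj z z' z.2 z'.2 h)
      coord_mem := fun z i _ => small_mem (hnu z z.2 i)
      coord_I := fun τ _ z _ i => hI τ τ.2 z z.2 i
      AI := fun a ha hfix => Fermat.Agent.S19.IntegralWV.AI ha (fun τ hτ => hfix ⟨τ, hτ⟩ (Subgroup.mem_top _))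
      base := fun x => ⟨0, fun τ _ => Subtype.ext (smul_zero (τ : GQ)), AddSubgroup.mem_top _⟩
      hOL := fun a ha hfix => Fermat.Agent.S19.OLX0.mem_OL_of_fixed ha (fun τ hτ hρ =>
        hfix ⟨τ, hτ⟩ (Subgroup.mem_top _) (fun t => Subtype.ext (by
          have h1 := congrArg (fun w : ↥(T N ((p : ℤ) ^ k)) => (w : JZero N))
            (hρ ⟨(t : JZero N), t.2.2⟩)
          exact h1)))
      small_mem := fun c hc => small_mem hc
      V := fun c hc b => V_Aalg _ hA c hc b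
      coord_add := fun z z' _ _ => by
        obtain ⟨c, hc, h⟩ := hadd z z' z.2 z'.2
        exact ⟨c, hc, fun n i => h n i⟩ }

include hA hinj hnu hI hadd in
set_option maxHeartbeats 1600000 in
/-- **[N2], the order**: a function-level Hopf order over `W A` on `J1[p^k]`, equivariant for the
inertia group, with values in `A`, local everywhere. -/
theorem isHopfOrder_of_chart (k : ℕ) :
    ∃ HW : Subalgebra ↥(W A) (↥(Tk (p := p) J1 k) → Qbar),
      IsHopfOrder (kappa (K := Qbar) (A.inertiaSubgroupIn ℚ)) (rhoT J1 hst k) HW ∧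
      (∀ f ∈ HW, ∀ t, f t ∈ A) ∧ ∀ f ∈ HW, ∀ s s', f s - f s' ∈ A.nonunits := by
  haveI := finite_Tk (p := p) J1 k
  haveI := Fermat.Agent.S19.FrameWX0.isNoetherianRing_W hA
  haveI := finite_OLX (N := N)
    (pow_ne_zero k (Int.natCast_ne_zero.2 (Fact.out : p.Prime).ne_zero) : ((p : ℤ) ^ k) ≠ 0) hA
  have C := chartAPI_of_chart hA J1 coord Ψ hst hinj hnu hI hadd k
  have D := C.genData0 (OLX A N ((p : ℤ) ^ k))
  refine ⟨HW0 (W := ↥(W A)) (actJ J1 hst) (⊤ : AddSubgroup ↥J1) (iotaT (p := p) J1 k)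
    (⊤ : Subgroup ↥(A.inertiaSubgroupIn ℚ)) (coordJ J1 coord), ?_, ?_, ?_⟩
  · exact
      { fg := (fg_toSubmodule_iff _).1 (D.fg (OLX A N ((p : ℤ) ^ k)))
        equiv := fun φ hφ σ t => D.equivOn (OLX A N ((p : ℤ) ^ k)) φ hφ σ (Subgroup.mem_top _) t
        sep := D.sep (OLX A N ((p : ℤ) ^ k))
        comul := fun φ hφ => by
          obtain ⟨n, a, b, ha, hb, hab⟩ := D.comul (OLX A N ((p : ℤ) ^ k)) φ hφ
          exact ⟨Fin n, inferInstance, a, b, ha, hb, hab⟩ }
  · intro f hf t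
    exact ((HW0_le_localAlg C (nonunitsAddSubgroup A)
      (fun a ha x hx => mul_mem_nonunits ha hx) (fun z _ i => hnu z z.2 i)) hf).1 t
  · intro f hf s s'
    refine ((HW0_le_localAlg C (nonunitsAddSubgroup A)
      (fun a ha x hx => mul_mem_nonunits ha hx) (fun z _ i => hnu z z.2 i)) hf).2 s s' ?_
    rw [QuotientAddGroup.eq_iff_sub_mem]
    exact AddSubgroup.mem_top _

include hA hst hinj hnu hI hadd in
set_option maxHeartbeats 1600000 in
/-- **[N2] + Raynaud = third clause of SEAM Ω.**  On every reachable subgroup of `J1 ⊓ J₀(N)[p^k]`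
the inertia group of `A` acts through the cyclotomic character. -/
theorem cyc_of_chart (k : ℕ) (B : AddSubgroup (JZero N))
    (hB : ∀ z ∈ B, z ∈ J1 ∧ (p ^ k) • z = 0)
    (hR : Reach (fun (τ : ↥(A.inertiaSubgroupIn ℚ)) (z : JZero N) => (τ : GQ) • z) p B)
    (τ : ↥(A.inertiaSubgroupIn ℚ)) (z : JZero N) (hz : z ∈ B) :
    (τ : GQ) • z = cycExp p k (τ : GQ) • z := by
  haveI := finite_Tk (p := p) J1 k
  obtain ⟨HW, hH, -, hloc⟩ := isHopfOrder_of_chart hA J1 coord Ψ hst hinj hnu hI hadd k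
  have hBT : B ≤ Tk (p := p) J1 k := by
    intro z hz
    refine ⟨(hB z hz).1, ?_⟩
    change z ∈ T N ((p : ℤ) ^ k)
    rw [mem_T_iff, ← Nat.cast_pow, natCast_zsmul]
    exact (hB z hz).2
  have hR' := reach_addSubgroupOf (Tk (p := p) J1 k)
    (fun τ s hs => smul_mem_Tk (p := p) J1 hst τ hs) hBT hR
  have hinjT : ∀ σ : ↥(A.inertiaSubgroupIn ℚ), Function.Injective (rhoT (p := p) J1 hst k σ) := by
    intro σ x y hxy
    apply Subtype.ext
    have h1 : (σ : GQ) • (x : JZero N) = (σ : GQ) • (y : JZero N) := congrArg Subtype.val hxy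
    exact (MulAction.injective (σ : GQ)) h1
  have key := act_eq_cycExp_nsmul A hA (T := ↥(Tk (p := p) J1 k)) (k := k)
    (act := rhoT (p := p) J1 hst k)
    (fun σ s t => Subtype.ext (smul_add (σ : GQ) (s : JZero N) (t : JZero N))) hinjT hH
    (B.addSubgroupOf (Tk (p := p) J1 k))
    (fun s hs => Subtype.ext (by
      rw [AddSubgroup.coe_nsmul, ZeroMemClass.coe_zero]
      exact (hB _ hs).2))
    (fun f hf s _ => hloc f hf s 0) hR' τ ⟨z, hBT hz⟩ hz
  have h2 := congrArg (Subtype.val : ↥(Tk (p := p) J1 k) → JZero N) key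
  rw [AddSubgroup.coe_nsmul] at h2
  exact h2

end Chart

end Fermat.Agent.S33.Hopf.Api
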