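import Fermat.Agent.S33.Alg.Reach
import Fermat.Agent.S15.P.OrderG0
import Fermat.Agent.S15.P.Integral
import Fermat.Agent.S15.P.CharsInt
import Fermat.Agent.S15.P.CycAct

/-!
# PROJECT N (S33), `Hopf/Scalar` (helper16): the Raynaud step in the `Reach` literal

Composition of LANDED stock of PROJECT M (`S15/P/Integral.isInt_restrict_of_chain`,
`S32/HopfClosure.IsHopfOrder.map_pullback`, `S15/P/CharsInt.char_equivariant`,
`S15/P/CycAct.eq_cycExp_nsmul_of_forall_char`), for EVERY valuation ring `A` of `ℚ̄` over `p`: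

* `oframe_of_liesOver` : the arithmetic frame `OFrame (W A) (K0 A) κ A p` of `S15/P/Integral` (main's
  `GkChain.oframe_padic` is the case of the fixed place `padicPlace p`);
* `act_eq_cycExp_nsmul` : `T` a finite abelian group with an additive injective action `act` of the
  inertia group `I_A`, `HW` a function-level Hopf order over `W A` on `T` (`S32/HopfClosure`), `B ≤ T`
  a subgroup killed by `p ^ k` on which `HW` is local (`f s - f 0 ∈ 𝔪_A`) and which is reachable
  (`S33/Alg/Reach.Reach`: top of an `I_A`-stable chain from `⊥` with successive indices `1` or `p`).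
  Then every `τ ∈ I_A` acts on `B` as multiplication by `cycExp p k τ`.
-/

set_option autoImplicit false
set_option linter.unusedSectionVars false
set_option linter.style.haveILetI false
set_option synthInstance.maxHeartbeats 400000

noncomputable section

namespace Fermat.Agent.S33.Hopf.Scalar

open Fermat.Agent.S18.C.SmallDVR
open Fermat.Agent.S32.HopfClosure Fermat.Agent.S15.P.OrderG0 Fermat.Agent.S15.P.Integral
open Fermat.Agent.S15.P.CharsInt Fermat.Agent.S15.P.CycAct
open Fermat.Agent.S33.Alg.Reach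

local notation "Qbar" => AlgebraicClosure ℚ
local notation "GQ" => (AlgebraicClosure ℚ ≃ₐ[ℚ] AlgebraicClosure ℚ)

variable {p : ℕ} [Fact p.Prime]

/-- inertia moves the elements of `A` by non-units -/
theorem valuation_sub_lt_one (A : ValuationSubring Qbar) (σ : ↥(A.inertiaSubgroupIn ℚ)) {x : Qbar}
    (hx : x ∈ A) : A.valuation ((σ : GQ) x - x) < 1 :=
  (A.mem_nonunits_iff).1
    (((Fermat.Agent.CFT.LocalBridge.mem_inertiaSubgroupIn_iff A (σ : GQ)).1 σ.2).2 x hx)

/-- helper6's frame `OFrame` at `(W A, K0 A, ℚ̄)` for the inertia group of ANY `A` over `p`. -/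
theorem oframe_of_liesOver (A : ValuationSubring Qbar) (hA : A.LiesOverPrime p) :
    OFrame ↥(W A) ↥(K0 A) (kappa (K := Qbar) (A.inertiaSubgroupIn ℚ)) A p where
  fix := hfix_kappa A
  le := algebraMap_W_Qbar_mem A
  sat := fun x hx => ⟨⟨x, hx⟩, rfl⟩
  inertia := fun σ x hx => valuation_sub_lt_one A σ ((A.valuation_le_one_iff _).1 hx)
  unif_lt := valuation_ell_lt_one hA
  unif := by
    intro x hx
    by_cases hx0 : x = 0
    · rw [hx0, map_zero, map_zero]
      exact zero_le
    have hxW : x ∈ W A := (A.valuation_le_one_iff _).1 hx.le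
    obtain ⟨n, hn⟩ := exists_valuation_eq_pow hA (⟨x, hxW⟩ : ↥(W A))
      (fun h => hx0 (congrArg Subtype.val h))
    change A.valuation ((x : ↥(K0 A)) : Qbar) = A.valuation ((p : ℕ) : Qbar) ^ n at hn
    change A.valuation ((x : ↥(K0 A)) : Qbar) ≤ _
    change A.valuation ((x : ↥(K0 A)) : Qbar) < 1 at hx
    rw [hn] at hx ⊢
    rcases Nat.eq_zero_or_pos n with h0 | hpos
    · rw [h0, pow_zero] at hx
      exact absurd hx (lt_irrefl _)
    · calc A.valuation ((p : ℕ) : Qbar) ^ n
          ≤ A.valuation ((p : ℕ) : Qbar) ^ 1 :=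
            pow_le_pow_of_le_one zero_le (valuation_ell_lt_one hA).le hpos
        _ = _ := pow_one _

set_option maxHeartbeats 1600000 in
/-- **The Raynaud step.**  On a reachable subgroup `B` (killed by `p ^ k`) of a finite group `T`
carrying a Hopf order over `W A` which is local on `B`, the inertia group of `A` acts through the
cyclotomic character. -/
theorem act_eq_cycExp_nsmul (A : ValuationSubring Qbar) (hA : A.LiesOverPrime p)
    {T : Type*} [AddCommGroup T] [Finite T] {k : ℕ}
    {act : ↥(A.inertiaSubgroupIn ℚ) → T → T}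
    (hadd : ∀ σ s t, act σ (s + t) = act σ s + act σ t)
    (hinj : ∀ σ, Function.Injective (act σ))
    {HW : Subalgebra ↥(W A) (T → Qbar)}
    (hH : IsHopfOrder (kappa (K := Qbar) (A.inertiaSubgroupIn ℚ)) act HW)
    (B : AddSubgroup T) (hBk : ∀ s ∈ B, p ^ k • s = 0)
    (hloc : ∀ f ∈ HW, ∀ s ∈ B, f s - f 0 ∈ A.nonunits)
    (hR : Reach act p B) (τ : ↥(A.inertiaSubgroupIn ℚ)) (s : T) (hs : s ∈ B) :
    act τ s = cycExp p k (τ : GQ) • s := by
  classical
  haveI hdvr : IsDiscreteValuationRing ↥(W A) := isDiscreteValuationRing_W hA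
  obtain ⟨Fl, n, h0, hn, hmono, hstab, hidx⟩ := hR
  -- the normalised integrals are integral on `B`
  have hInt := isInt_restrict_of_chain (oframe_of_liesOver A hA) hH hadd hinj Fl n h0 hmono hstab
    hidx
    (fun f hf s hs => by
      rw [hn] at hs
      exact (A.mem_nonunits_iff).1 (hloc f hf s hs)) n le_rfl
  rw [hn] at hInt
  haveI : Fintype ↥B := Fintype.ofFinite _
  rw [isInt_iff] at hInt
  -- the restricted order
  have hst : ∀ (σ : ↥(A.inertiaSubgroupIn ℚ)), ∀ x ∈ B, act σ x ∈ B := fun σ x hx => by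
    have := hstab n le_rfl σ x (by rw [hn]; exact hx)
    rwa [hn] at this
  let act0 : ↥(A.inertiaSubgroupIn ℚ) → ↥B → ↥B := fun σ x => ⟨act σ (x : T), hst σ _ x.2⟩
  have hH0 : IsHopfOrder (kappa (K := Qbar) (A.inertiaSubgroupIn ℚ)) act0
      (HW.map (pullback _ B.subtype)) :=
    hH.map_pullback B.subtype Subtype.coe_injective (fun σ t => rfl)
  have hinj0 : ∀ σ, Function.Injective (act0 σ) := by
    intro σ x y hxy
    apply Subtype.ext
    exact hinj σ (congrArg Subtype.val hxy)
  have hbij : ∀ σ, Function.Bijective (act0 σ) := fun σ =>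
    ⟨hinj0 σ, Finite.injective_iff_surjective.1 (hinj0 σ)⟩
  have hN0 : (Fintype.card ↥B : Qbar) ≠ 0 := Nat.cast_ne_zero.2 Fintype.card_ne_zero
  have hInt0 : ∀ f ∈ HW.map (pullback _ B.subtype),
      (Fintype.card ↥B : Qbar)⁻¹ * ∑ t, f t ∈ A := by
    intro f hf
    have h1 := hInt f hf
    have hpos : 0 < A.valuation (Fintype.card ↥B : Qbar) := (Valuation.pos_iff _).2 hN0
    rw [← A.valuation_le_one_iff, map_mul, map_inv₀, inv_mul_le_iff₀ hpos, mul_one]
    exact h1
  have hkill : ∀ t : ↥B, p ^ k • t = 0 := fun t => Subtype.ext (hBk t t.2)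
  -- characters are equivariant, hence the action is cyclotomic
  have key : act0 τ ⟨s, hs⟩ = cycExp p k (τ : GQ) • (⟨s, hs⟩ : ↥B) := by
    refine eq_cycExp_nsmul_of_forall_char (A := ↥B) hkill (τ : GQ) ⟨s, hs⟩ (act0 τ ⟨s, hs⟩)
      (fun d => ?_)
    have := char_equivariant (hfix_kappa A) A (algebraMap_W_Qbar_mem A)
      (fun x hx σ => valuation_sub_lt_one A σ hx)
      hH0 hbij (fun σ s t => Subtype.ext (hadd _ _ _)) hN0 hInt0
      (d := fun x : ↥B => ((Additive.toMul (d x) : Qbarˣ) : Qbar))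
      (fun s t => by rw [map_add, toMul_add, Units.val_mul])
      (by rw [map_zero, toMul_zero, Units.val_one]) τ ⟨s, hs⟩
    exact this.symm
  have h2 := congrArg (Subtype.val : ↥B → T) key
  rw [AddSubgroup.coe_nsmul] at h2
  exact h2

end Fermat.Agent.S33.Hopf.Scalar
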